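import Fermat.Agent.GR.E.Defs

/-!
# Project C36 (Carayol at `q² ∥ M`), abstract part: definitions

`R` is a DVR with uniformizer `ϖ`, `F` a field which is an `R`-algebra (a function field over
`Frac R`), `𝒪 i` (`i : ι`, `ι` finite) the valuation subrings of `F` attached to the components of
the special fibre.  The components may have multiplicities: `ϖ` is only assumed to lie in the
maximal ideal of `𝒪 i`.  A multi-chart is an integrally closed `R`-subalgebra `C` of `F` with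
`C = C[1/ϖ] ∩ ⋂ 𝒪 i`, all `C / 𝔭 i` Dedekind, which is regular at the closed points of the special
fibre (one of the vertical primes through the point is locally principal).
-/

set_option autoImplicit false

namespace Fermat.Agent.C36

open Fermat.Agent.GR.E

variable {R : Type*} [CommRing R] {F : Type*} [Field F] [Algebra R F] {ι : Type*}

/-- `x` lies in the maximal ideal of `𝒪`. -/
def Small (𝒪 : ValuationSubring F) (x : F) : Prop := 𝒪.valuation x < 1

/-- The centre `{x ∈ C : x ∈ max 𝒪}` of `𝒪` on `C` (see `mem_cen`). -/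
def cen (𝒪 : ValuationSubring F) (C : Subalgebra R F) : Ideal C :=
  Ideal.span {x : C | Small 𝒪 (x : F)}

/-- What is needed from the family of valuation subrings. -/
structure MVal (ϖ : R) (𝒪 : ι → ValuationSubring F) : Prop where
  ne_zero : algebraMap R F ϖ ≠ 0
  small : ∀ i, Small (𝒪 i) (algebraMap R F ϖ)
  ram : ∃ E : ℕ, ∀ i, ∀ y : F, Small (𝒪 i) y → y ^ E / algebraMap R F ϖ ∈ 𝒪 i

/-- The chart conditions which are also needed on the overlap chart. -/
structure MSat (ϖ : R) (𝒪 : ι → ValuationSubring F) (C : Subalgebra R F) : Prop where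
  le : ∀ i, ∀ x ∈ C, x ∈ 𝒪 i
  sat : ∀ x ∈ C, (∀ i, x / algebraMap R F ϖ ∈ 𝒪 i) → x / algebraMap R F ϖ ∈ C
  closed : ∀ x : F, IsIntegral C x → x ∈ C

/-- `𝔭 i` is principal in the local ring of `C` at `𝔪`, generated by `X`. -/
def PrincipalAt (𝒪 : ValuationSubring F) (C : Subalgebra R F) (𝔪 : Ideal C) (X : C) : Prop :=
  X ∈ cen 𝒪 C ∧ ∀ f ∈ cen 𝒪 C, ∃ s : C, s ∉ 𝔪 ∧ X ∣ s * f

/-- A chart whose special fibre has normal components and which is regular at the closed points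
of the special fibre. -/
structure MChart (ϖ : R) (𝒪 : ι → ValuationSubring F) (C : Subalgebra R F) : Prop
    extends MSat ϖ 𝒪 C where
  frac : ∀ i, ∀ x ∈ 𝒪 i, ∃ b ∈ C, ¬ Small (𝒪 i) b ∧ x * b ∈ C
  noeth : IsNoetherianRing C
  ded : ∀ i, IsDedekindDomain (C ⧸ cen (𝒪 i) C)
  sep : ∀ i, ∃ e ∈ C, ¬ Small (𝒪 i) e ∧ ∀ j, j ≠ i → Small (𝒪 j) e
  reg : ∀ 𝔪 : Ideal C, 𝔪.IsMaximal → algebraMap R C ϖ ∈ 𝔪 →
    ∃ i, cen (𝒪 i) C ≤ 𝔪 ∧ ∃ X : C, PrincipalAt (𝒪 i) C 𝔪 X

/-- Near `𝔪` the module `I(C) = rootSet C n w` contains an element which is congruent, at all the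
valuations, to an element of `C` which is a unit at `𝔪`. -/
def GlueAt (𝒪 : ι → ValuationSubring F) (C : Subalgebra R F) (n : ℕ) (w : F)
    (𝔪 : Ideal C) : Prop :=
  ∃ b ∈ rootSet C n w, ∃ e : C, e ∉ 𝔪 ∧ ∀ i, Small (𝒪 i) (b - (e : F))

/-- The gluing constants of `w` at `𝔪` are trivial: the residues of every local generator `a` of
`I(C)` on the components through `𝔪` take the same value at `𝔪`. -/
def EqAt (𝒪 : ι → ValuationSubring F) (C : Subalgebra R F) (n : ℕ) (w : F)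
    (𝔪 : Ideal C) : Prop :=
  ∀ a : F, ∀ h : a ^ n * w ∈ C, (⟨a ^ n * w, h⟩ : C) ∉ 𝔪 →
    ∀ i j, cen (𝒪 i) C ≤ 𝔪 → cen (𝒪 j) C ≤ 𝔪 → ∀ α β : C,
      Small (𝒪 i) (a - (α : F)) → Small (𝒪 j) (a - (β : F)) → α - β ∈ 𝔪

end Fermat.Agent.C36
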